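import Mathlib
import Fermat.Prelude.Def_FLTPrelim_GaloisRep
import Fermat.Prelude.Def_FLTPrelim_Modularity
import Fermat.Prelude.Def_FLTPrelim_Ramification
import Fermat.Prelude.Def_EllipticCurve_FrobeniusTrace
import Fermat.Prelude.Def_CuspForm_HeckeGaloisRepDatum
import Fermat.Prelude.Def_CuspForm_Newforms
import Fermat.Prelude.Def_GaloisRep_LocalConditions
import Fermat.Agent.S52.Defs2

/-!
# S58 (conductor-level matching) : the contracts between the blocks.  Definitions only (no sorry).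

`W` a semistable integral Weierstrass curve, modular of a cube-free level `N` divisible by all bad primes.
Route: `g` := newform of minimal level `M ∣ N` with `a_r(g) = a_r(W)` for `r ∤ N`.  `E[λ^m](ℚ̄)` is a `TOR.KSys`, so
`TOR.charpoly_eq_of_kSys` computes `charpoly ρ_g(σ)` for every `σ` from the action of `σ` on `E[λ^m]`:
* `σ` = Frobenius at a good prime `q ≠ λ`:  `X² - a_q(W) X + q`      (block [RED] + [CH]);
* `σ` in the inertia group at `q ≠ λ`:       `(X - 1)²`                 (block [NODE]).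
Against S35 (`q ‖ M`: `X² ∓ (q+1) X + q`) and S36 without `hres` (`q² ‖ M`: not unipotent) this gives `M ∣ rad Δ` and
`a_q(g) = a_q(W)` for all good `q`;  finally `g` is stabilised to level `rad Δ`  (block [MOD]).
-/

set_option autoImplicit false

open WeierstrassCurve WeierstrassCurve.Affine WeierstrassCurve.Affine.Point Polynomial

namespace Fermat.Agent.S58

local notation "Qb" => AlgebraicClosure ℚ
local notation "GQ" => (AlgebraicClosure ℚ ≃ₐ[ℚ] AlgebraicClosure ℚ)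

/-- the curve over `ℚ`. -/
abbrev EQ (W : WeierstrassCurve ℤ) : WeierstrassCurve ℚ := W.map (Int.castRingHom ℚ)

/-- **[CH]** Cayley-Hamilton for Frobenius (up to the harmless factor 2) for an ARBITRARY Weierstrass equation with
`Δ ≠ 0` over a prime field, ALL characteristics (2 and 3 are the new cases). -/
def CHStatement : Prop :=
  ∀ (p : ℕ) [Fact p.Prime] (C : WeierstrassCurve (ZMod p)), C.Δ ≠ 0 →
    ∀ (Ω : Type) [Field Ω] [DecidableEq Ω] [Algebra (ZMod p) Ω],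
      (∃ x : Ω, Transcendental (ZMod p) x) → ∀ P : (C⁄Ω).Point,
        (2 : ℤ) • (S52.frobPt p C (S52.frobPt p C P) - C.traceOfFrobenius • S52.frobPt p C P
          + (p : ℤ) • P) = 0

/-- **[RED]** the Eichler-Shimura relation on the prime-to-`ℓ` odd torsion at a good prime `ℓ` (all `ℓ`, incl. 2, 3). -/
def FrobTors (W : WeierstrassCurve ℤ) : Prop :=
  ∀ (ℓ n : ℕ), ℓ.Prime → W.IsGoodPrimeFor ℓ → Odd n → ¬ ℓ ∣ n →
    ∀ A : ValuationSubring Qb, A.LiesOverPrime ℓ → ∀ σ : GQ, A.IsFrobeniusAt σ ℓ →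
      ∀ P : ((EQ W)⁄Qb).Point, (n : ℤ) • P = 0 →
        σ • σ • P - W.apOfModel ℓ • σ • P + (ℓ : ℤ) • P = 0

/-- **[NODE]** inertia at a prime `q` of good or multiplicative reduction acts unipotently on the odd prime-to-`q`
torsion (all `q`, incl. 2, 3). -/
def InertiaTors (W : WeierstrassCurve ℤ) : Prop :=
  ∀ (q n : ℕ), q.Prime → ((q : ℤ) ∣ W.Δ → ¬ (q : ℤ) ∣ W.c₄) → Odd n → ¬ q ∣ n →
    ∀ A : ValuationSubring Qb, A.LiesOverPrime q → ∀ σ ∈ A.inertiaSubgroupIn ℚ,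
      ∀ P : ((EQ W)⁄Qb).Point, (n : ℤ) • P = 0 →
        σ • σ • P - (2 : ℤ) • σ • P + P = 0

/-- **[EA]** points of exact order `λ^m`. -/
def ExactOrder (W : WeierstrassCurve ℤ) : Prop :=
  ∀ (lam m : ℕ), lam.Prime → lam ≠ 2 →
    ∃ P : ((EQ W)⁄Qb).Point, ∀ x : ℤ, x • P = 0 ↔ ((lam ^ m : ℕ) : ℤ) ∣ x

/-- S36 without `hres` (= the statement of `CAR.W.S36_of_thmC`). -/
def S36NoRes : Prop :=
  ∀ {M : ℕ} [NeZero M] {g : CuspForm (CongruenceSubgroup.Gamma0 M) 2} (_ : g.IsNewform)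
    (lam : ℕ) [Fact lam.Prime] (S : Finset ℕ)
    (O' : Type) [CommRing O'] [IsDomain O'] [IsDiscreteValuationRing O']
    [IsAdicComplete (IsLocalRing.maximalIdeal O') O'] [Finite (IsLocalRing.ResidueField O')]
    [CharZero O'] (_ : (lam : O') ∈ IsLocalRing.maximalIdeal O') (_ : lam ≠ 2)
    (chig : CuspForm.heckeAlgebra M 2 (↑S : Set ℕ) →+* ℂ)
    (_ : ∀ (ℓ : ℕ) (hℓ : ℓ.Prime) (hℓM : ¬ ℓ ∣ M) (hℓS : ℓ ∉ (↑S : Set ℕ)),
      chig (CuspForm.heckeAlgebra.T hℓ hℓM hℓS) = ModularFormClass.qCoeff g ℓ)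
    (iota : chig.range →+* O')
    (_ : lam ∈ S) (_ : ∀ q : ℕ, q.Prime → q ∣ M → q ∈ S),
    ∃ (O'' : Type) (_ : CommRing O'') (_ : IsDomain O'') (_ : IsDiscreteValuationRing O'')
      (_ : IsAdicComplete (IsLocalRing.maximalIdeal O'') O'') (_ : Finite (IsLocalRing.ResidueField O''))
      (_ : CharZero O'') (_ : Algebra O' O'') (_ : Module.Finite O' O'') (_ : IsLocalHom (algebraMap O' O'')),
      Function.Injective (algebraMap O' O'') ∧
      ∃ ρ : GaloisRepAdic O'',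
        (∀ (ℓ : ℕ) (hℓ : ℓ.Prime) (hℓM : ¬ ℓ ∣ M) (hℓS : ℓ ∉ (↑S : Set ℕ)),
          ∀ A : ValuationSubring (AlgebraicClosure ℚ), A.LiesOverPrime ℓ →
            ∀ σ : AlgebraicClosure ℚ ≃ₐ[ℚ] AlgebraicClosure ℚ, A.IsFrobeniusAt σ ℓ →
              LinearMap.charpoly (ρ.ρ σ) =
                X ^ 2 - C (algebraMap O' O'' ((iota.comp chig.rangeRestrict) (CuspForm.heckeAlgebra.T hℓ hℓM hℓS))) * X
                  + C ((ℓ : O''))) ∧
        (∀ q : ℕ, q.Prime → q ≠ lam → M.factorization q = 2 → ¬ ρ.IsUnipotentOnInertiaAt q)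

end Fermat.Agent.S58
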